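import Fermat.Agent.S48.H16.Shift
import Fermat.Agent.S48.H668.F1Bd

/-!
# S48 / Tower A1 / A1-RED, leaf R4b3 (helper929): the BRIDGE for `F1p M a`

`E` a field of characteristic `0`, `ι : E →+* ℂ`, `ζ' ∈ Eˣ` with `ι ζ' = e^{2πi/(M a)}`.
Same shape as helper668's bridge for `F1 M` (`H668.F1Avatar`, `H668.F1Bd`), on top of helper16's
generic substitution `H16.iactFieldShift`.

* `f1pEmb ζ' hζ' : F1pL E M a →+* IActField ι (M * a)`, `iactFieldExp (f1pEmb f) = f(X^(M a))`;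
* `f1pEmb_alpha1`, `f1pEmb_beta1` : on the two copies of `E · F1 M` the bridge is the level
  raising resp. the substitution `τ ↦ a τ` of helper668's bridge `f1Emb`;
* `f1pL_mem_induction`, `f1pL_ringHom_ext` : `E · F1p M a` is generated by the two copies;
* `f1pEmb_mem_iactBd`  : **the image lies in helper856's field `iactBd`** (bounded denominators at
  every cusp) of level `M a`;
* `smul_f1pEmb`        : **diamonds = action of `Γ₀(M a)`**;
* `f1pEmb_diamond_mem_gaussRing` : **`G_V` in avatar form** for `E · F1p M a`.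
-/

set_option autoImplicit false
set_option linter.unusedSectionVars false

noncomputable section

open ModularCurve HahnSeries UpperHalfPlane CongruenceSubgroup
open scoped MatrixGroups Manifold

namespace Fermat.Agent.S48.H929

open Fermat.Agent.S24 Fermat.Agent.S24.H997 Fermat.Agent.S24.H624 Fermat.Agent.S20.L1
open Fermat.Agent.S48.H828 Fermat.Agent.S48.H648 Fermat.Agent.S48.F1 Fermat.Agent.S48.H668
open Fermat.Agent.S48.H856 Fermat.Agent.S48.H16 Fermat.Agent.S18.Alg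

variable {E : Type*} [Field E] [CharZero E] {ι : E →+* ℂ} {M : ℕ} [NeZero M] {a : ℕ} [NeZero a]

/-! ### The root of unity and the two maps -/

theorem f1p_a_pos : 0 < a := Nat.pos_of_ne_zero (NeZero.ne a)

theorem f1p_hN_lift : M * a = M * 1 * a := by rw [mul_one]

theorem f1p_hN_shift : M * a = M * a * 1 := by rw [mul_one]

/-- `ζ'^a` is the root of unity `e^{2πi/M}`. -/
theorem f1p_map_zeta_pow (ζ' : Eˣ) (hζ' : Units.map (ι : E →* ℂ) ζ' = infRoot 1 (M * a)) :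
    Units.map (ι : E →* ℂ) (ζ' ^ a) = infRoot 1 M := by
  have hM : 0 < M := Nat.pos_of_ne_zero (NeZero.ne M)
  have h := shift_root (ι := ι) (N := M * a) ζ' hζ' 1 hM (f1p_a_pos (a := a)) rfl
  rwa [one_mul, zpow_natCast] at h

variable (ζ' : Eˣ) (hζ' : Units.map (ι : E →* ℂ) ζ' = infRoot 1 (M * a))

/-- Level raising `IActField ι M →+* IActField ι (M a)` (helper16's `iactFieldShift`). -/
def f1pLift : IActField ι M →+* IActField ι (M * a) :=
  iactFieldShift f1p_hN_lift one_pos f1p_a_pos ζ' hζ'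

/-- The substitution `τ ↦ a τ`, `IActField ι M →+* IActField ι (M a)` (helper16's
`iactFieldShift`). -/
def f1pShift : IActField ι M →+* IActField ι (M * a) :=
  iactFieldShift f1p_hN_shift f1p_a_pos one_pos ζ' hζ'

theorem iactFieldExp_f1pLift (x : IActField ι M) (ψ : LaurentSeries E)
    (hx : iactFieldExp ι M x = qExpand E M ψ) :
    iactFieldExp ι (M * a) (f1pLift ζ' hζ' x) = qExpand E (M * a) ψ :=
  iactFieldExp_raise_of_qExpand f1p_hN_lift f1p_a_pos ζ' hζ' x ψ hx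

theorem iactFieldExp_f1pShift (x : IActField ι M) (ψ : LaurentSeries E)
    (hx : iactFieldExp ι M x = qExpand E M ψ) :
    iactFieldExp ι (M * a) (f1pShift ζ' hζ' x) = qExpand E (M * a) (qExpand E a ψ) :=
  iactFieldExp_iactFieldShift_of_qExpand f1p_hN_shift f1p_a_pos one_pos ζ' hζ' x ψ hx

theorem smul_f1pLift (γ : SL(2, ℤ)) (x : IActField ι M) :
    γ • f1pLift ζ' hζ' x = f1pLift ζ' hζ' (γ • x) :=
  smul_iactFieldShift_one f1p_hN_lift f1p_a_pos ζ' hζ' γ x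

/-- The integral conjugate `(γ₀₀, a γ₀₁; γ₁₀ / a, γ₁₁) ∈ Γ₀(M)` of `γ ∈ Γ₀(M a)`. -/
theorem exists_conj_Gamma0 {γ : SL(2, ℤ)} (hγ : γ ∈ Gamma0 (M * a)) :
    ∃ γ' : SL(2, ℤ), γ' ∈ Gamma0 M ∧ γ' 0 0 = γ 0 0 ∧ γ' 0 1 = a * γ 0 1 ∧
      γ 1 0 = γ' 1 0 * a ∧ γ' 1 1 = γ 1 1 := by
  have hdvd : ((M * a : ℕ) : ℤ) ∣ γ 1 0 := by
    rw [Gamma0_mem] at hγ
    exact (ZMod.intCast_zmod_eq_zero_iff_dvd _ _).1 hγ
  obtain ⟨c, hc⟩ := hdvd
  have hc' : γ 1 0 = (a : ℤ) * ((M : ℤ) * c) := by rw [hc]; push_cast; ring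
  refine ⟨conjDiag a γ ((M : ℤ) * c) hc', ?_, by simp [conjDiag], by simp [conjDiag],
    by simp [conjDiag, hc']; ring, by simp [conjDiag]⟩
  rw [Gamma0_mem]
  have : (conjDiag a γ ((M : ℤ) * c) hc') 1 0 = (M : ℤ) * c := by simp [conjDiag]
  rw [this]
  push_cast
  simp

theorem Gamma0_mul_le : Gamma0 (M * a) ≤ Gamma0 M := by
  intro γ hγ
  rw [Gamma0_mem] at hγ ⊢
  have h1 := (ZMod.intCast_zmod_eq_zero_iff_dvd _ _).1 hγ
  exact (ZMod.intCast_zmod_eq_zero_iff_dvd _ _).2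
    (Dvd.dvd.trans ⟨(a : ℤ), by push_cast; ring⟩ h1)

theorem smul_f1pShift {γ γ' : SL(2, ℤ)} (h00 : γ' 0 0 = γ 0 0) (h01 : γ' 0 1 = a * γ 0 1)
    (h10 : γ 1 0 = γ' 1 0 * a) (h11 : γ' 1 1 = γ 1 1) (x : IActField ι M) :
    γ • f1pShift ζ' hζ' x = f1pShift ζ' hζ' (γ' • x) :=
  smul_iactFieldShift_of_entries f1p_hN_shift f1p_a_pos one_pos ζ' hζ' γ γ' h00 h01 h10 h11 x

/-! ### Avatars of `F1p M a` at level `M a` -/

include hζ' in
theorem avatarField_lift {F : LaurentSeries E} (hF : F ∈ avatarField ι M) :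
    F ∈ avatarField ι (M * a) := by
  obtain ⟨y, hy⟩ := hF
  exact ⟨f1pLift ζ' hζ' y, iactFieldExp_f1pLift ζ' hζ' y F hy⟩

include hζ' in
theorem avatarField_shift {F : LaurentSeries E} (hF : F ∈ avatarField ι M) :
    qExpand E a F ∈ avatarField ι (M * a) := by
  obtain ⟨y, hy⟩ := hF
  exact ⟨f1pShift ζ' hζ' y, iactFieldExp_f1pShift ζ' hζ' y F hy⟩

include hζ' in
/-- **Every element of `F1p M a` has an avatar in the full-level field of level `M a`.** -/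
theorem coeffEmb_mem_avatarField_F1p :
    ∀ x ∈ F1p M a, coeffEmb E x ∈ avatarField ι (M * a) := by
  have h1 := coeffEmb_mem_avatarField_F1 (ι := ι) (ζ' ^ a) (f1p_map_zeta_pow ζ' hζ')
  have hle : F1p M a ≤ IntermediateField.adjoin ℚ
      ((F1 M : Set (LaurentSeries ℚ)) ∪ ((F1 M).map (qExpandₐ a) : Set (LaurentSeries ℚ))) :=
    sup_le (fun x hx => IntermediateField.subset_adjoin ℚ _ (Or.inl hx))
      (fun x hx => IntermediateField.subset_adjoin ℚ _ (Or.inr hx))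
  intro x hx
  refine coeffEmb_mem_avatarField_of_adjoin _ ?_ x (hle hx)
  rintro s (hs | hs)
  · exact avatarField_lift ζ' hζ' (h1 s hs)
  · obtain ⟨t, ht, rfl⟩ := (IntermediateField.mem_map _).1 hs
    rw [qExpandₐ_apply, ← qExpand_coeffEmb]
    exact avatarField_shift ζ' hζ' (h1 t ht)

/-! ### The bridge -/

/-- **The bridge** `E · F1p M a →+* IActField ι (M a)`, `f(q) ↦ f(X^(M a))`. -/
def f1pEmb : F1pL E M a →+* IActField ι (M * a) :=
  baseChangeEmb ι (M * a) (F1p M a) (coeffEmb_mem_avatarField_F1p ζ' hζ')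

@[simp]
theorem iactFieldExp_f1pEmb (f : F1pL E M a) :
    iactFieldExp ι (M * a) (f1pEmb ζ' hζ' f) = qExpand E (M * a) (f : LaurentSeries E) :=
  iactFieldExp_baseChangeEmb _ _ f

theorem f1pEmb_eq_iff (f : F1pL E M a) (y : IActField ι (M * a)) :
    f1pEmb ζ' hζ' f = y ↔ iactFieldExp ι (M * a) y = qExpand E (M * a) (f : LaurentSeries E) :=
  baseChangeEmb_eq_iff _ _ f y

theorem f1pEmb_injective : Function.Injective (f1pEmb ζ' hζ') := (f1pEmb ζ' hζ').injective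

theorem f1pEmb_algebraMap (c : E) :
    f1pEmb ζ' hζ' (algebraMap E (F1pL E M a) c) = iactFC ι (M * a) c :=
  baseChangeEmb_algebraMap _ _ c

/-- On `α(E · F1 M)` the bridge is the level raising of helper668's bridge. -/
theorem f1pEmb_alpha1 (f : F1L E M) :
    f1pEmb ζ' hζ' (alpha1 E M a f)
      = f1pLift ζ' hζ' (f1Emb (ζ' ^ a) (f1p_map_zeta_pow ζ' hζ') f) := by
  rw [f1pEmb_eq_iff, coe_alpha1]
  exact iactFieldExp_f1pLift ζ' hζ' _ _ (iactFieldExp_f1Emb _ _ f)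

/-- On `β(E · F1 M)` (`q ↦ q^a`) the bridge is the substitution `τ ↦ a τ` of helper668's
bridge. -/
theorem f1pEmb_beta1 (f : F1L E M) :
    f1pEmb ζ' hζ' (beta1 E M a f)
      = f1pShift ζ' hζ' (f1Emb (ζ' ^ a) (f1p_map_zeta_pow ζ' hζ') f) := by
  rw [f1pEmb_eq_iff, coe_beta1]
  exact iactFieldExp_f1pShift ζ' hζ' _ _ (iactFieldExp_f1Emb _ _ f)

/-! ### Generation of `E · F1p M a` by the two copies of `E · F1 M` -/

omit [CharZero E] [NeZero M] in
/-- Induction principle for `E · F1p M a`: a ring homomorphism to a field maps into a subfield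
`K` as soon as it maps the constants and the two copies `α(E · F1 M)`, `β(E · F1 M)` into `K`. -/
theorem f1pL_mem_induction [Algebra ℚ E] {R : Type*} [Field R] (φ : F1pL E M a →+* R)
    (K : Subfield R) (hL : ∀ c : E, φ (algebraMap E _ c) ∈ K)
    (hα : ∀ f : F1L E M, φ (alpha1 E M a f) ∈ K) (hβ : ∀ f : F1L E M, φ (beta1 E M a f) ∈ K)
    (y : F1pL E M a) : φ y ∈ K := by
  set K'' : Subfield (LaurentSeries E) :=
    (K.comap φ).map ((F1pL E M a).val : F1pL E M a →+* LaurentSeries E) with hK''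
  have hmem : ∀ z : F1pL E M a, φ z ∈ K → (z : LaurentSeries E) ∈ K'' :=
    fun z hz => ⟨z, hz, rfl⟩
  have hc : ∀ q : ℚ, algebraMap ℚ (LaurentSeries ℚ) q ∈ K''.comap (coeffEmb E) := by
    intro q
    show coeffEmb E (algebraMap ℚ (LaurentSeries ℚ) q) ∈ K''
    rw [coeffEmb_algebraMap]
    exact hmem (algebraMap E _ (algebraMap ℚ E q)) (hL _)
  have hle : F1p M a ≤ Subfield.toIntermediateField (K''.comap (coeffEmb E)) hc := by
    refine sup_le ?_ ?_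
    · intro x hx
      exact hmem (alpha1 E M a ⟨coeffEmb E x, coeffEmb_mem_laurentBaseChange E hx⟩) (hα _)
    · intro x hx
      obtain ⟨t, ht, rfl⟩ := (IntermediateField.mem_map _).1 hx
      have := hmem (beta1 E M a ⟨coeffEmb E t, coeffEmb_mem_laurentBaseChange E ht⟩) (hβ _)
      rw [coe_beta1, qExpand_coeffEmb] at this
      exact this
  have hy : (y : LaurentSeries E) ∈ K'' := by
    have h := y.2
    rw [mem_laurentBaseChange_iff] at h
    refine (Subfield.closure_le (t := K'')).2 ?_ h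
    rintro z (⟨c, rfl⟩ | ⟨x, hx, rfl⟩)
    · exact hmem (algebraMap E _ c) (hL c)
    · exact hle hx
  obtain ⟨z, hz, hzy⟩ := hy
  have hzy' : z = y := Subtype.ext hzy
  rw [← hzy']
  exact hz

omit [CharZero E] [NeZero M] in
/-- Ring homomorphisms out of `E · F1p M a` are determined on the constants and on the two copies
of `E · F1 M`. -/
theorem f1pL_ringHom_ext [Algebra ℚ E] {R : Type*} [Field R] (φ ψ : F1pL E M a →+* R)
    (hL : ∀ c : E, φ (algebraMap E _ c) = ψ (algebraMap E _ c))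
    (hα : ∀ f : F1L E M, φ (alpha1 E M a f) = ψ (alpha1 E M a f))
    (hβ : ∀ f : F1L E M, φ (beta1 E M a f) = ψ (beta1 E M a f)) : φ = ψ := by
  ext y
  exact f1pL_mem_induction (RingHom.id _) (RingHom.eqLocusField φ ψ) hL hα hβ y

/-! ### Bounded denominators -/

section Bd

variable (𝒪 : ValuationSubring E) {w₀ : E}

/-- **R4b3**: the image of `E · F1p M a` in the full-level field of level `M a` lies in
`iactBd` (all translates are quotients of elements with bounded denominators). -/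
theorem f1pEmb_mem_iactBd (hd : IsDiscrete 𝒪 w₀) (f : F1pL E M a) :
    f1pEmb ζ' hζ' f ∈ iactBd (ι := ι) (M := M * a) 𝒪 hd := by
  refine f1pL_mem_induction (f1pEmb ζ' hζ') (iactBd (ι := ι) (M := M * a) 𝒪 hd) ?_ ?_ ?_ f
  · intro c
    rw [f1pEmb_algebraMap]
    exact iactFC_mem_iactBd 𝒪 hd c
  · intro f
    rw [f1pEmb_alpha1]
    exact iactFieldShift_mem_iactBd f1p_hN_lift one_pos f1p_a_pos ζ' hζ' 𝒪 hd
      (f1Emb_mem_iactBd _ _ 𝒪 hd f)
  · intro f
    rw [f1pEmb_beta1]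
    exact iactFieldShift_mem_iactBd f1p_hN_shift f1p_a_pos one_pos ζ' hζ' 𝒪 hd
      (f1Emb_mem_iactBd _ _ 𝒪 hd f)

theorem f1pEmb_fieldRange_le_iactBd (hd : IsDiscrete 𝒪 w₀) :
    (f1pEmb ζ' hζ').fieldRange ≤ iactBd (ι := ι) (M := M * a) 𝒪 hd := by
  rintro _ ⟨f, rfl⟩
  exact f1pEmb_mem_iactBd ζ' hζ' 𝒪 hd f

end Bd

/-! ### Diamonds = the action of `Γ₀(M a)` -/

/-- `γ • Φ(α f) = Φ(α (σ f))` for `γ ∈ Γ₀(M a)`, `σ` the diamond automorphism of `γ₁₁`. -/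
theorem smul_f1pEmb_alpha1 {γ : SL(2, ℤ)} (hγ : γ ∈ Gamma0 (M * a)) (d : (ZMod M)ˣ)
    (hd : (d : ZMod M) = ((γ 1 1 : ℤ) : ZMod M)) (σ : F1L E M ≃ₐ[E] F1L E M)
    (hσ : IsDiamond E M d σ) (f : F1L E M) :
    γ • f1pEmb ζ' hζ' (alpha1 E M a f) = f1pEmb ζ' hζ' (alpha1 E M a (σ f)) := by
  rw [f1pEmb_alpha1, f1pEmb_alpha1, smul_f1pLift,
    smul_f1Emb _ _ (Gamma0_mul_le hγ) d hd σ hσ f]

/-- `γ • Φ(β f) = Φ(β (σ f))` for `γ ∈ Γ₀(M a)`, `σ` the diamond automorphism of `γ₁₁`. -/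
theorem smul_f1pEmb_beta1 {γ : SL(2, ℤ)} (hγ : γ ∈ Gamma0 (M * a)) (d : (ZMod M)ˣ)
    (hd : (d : ZMod M) = ((γ 1 1 : ℤ) : ZMod M)) (σ : F1L E M ≃ₐ[E] F1L E M)
    (hσ : IsDiamond E M d σ) (f : F1L E M) :
    γ • f1pEmb ζ' hζ' (beta1 E M a f) = f1pEmb ζ' hζ' (beta1 E M a (σ f)) := by
  obtain ⟨γ', hγ', h00, h01, h10, h11⟩ := exists_conj_Gamma0 hγ
  rw [f1pEmb_beta1, f1pEmb_beta1, smul_f1pShift ζ' hζ' h00 h01 h10 h11,
    smul_f1Emb _ _ hγ' d (by rw [hd, h11]) σ hσ f]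

/-- `σ'` is the diamond automorphism `δ_d` of `E · F1p M a`: it is compatible, along both
degeneracy maps `α`, `β`, with a diamond automorphism `δ_d` of `E · F1 M`. -/
def IsDiamondP (E : Type*) [Field E] [Algebra ℚ E] (M a : ℕ) [NeZero a] (d : (ZMod M)ˣ)
    (σ' : F1pL E M a ≃ₐ[E] F1pL E M a) : Prop :=
  ∃ σ : F1L E M ≃ₐ[E] F1L E M, IsDiamond E M d σ ∧
    (∀ f, σ' (alpha1 E M a f) = alpha1 E M a (σ f)) ∧
    (∀ f, σ' (beta1 E M a f) = beta1 E M a (σ f))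

/-- **Diamond operators of `E · F1p M a` are the action of `Γ₀(M a)`.** -/
theorem smul_f1pEmb {γ : SL(2, ℤ)} (hγ : γ ∈ Gamma0 (M * a)) (d : (ZMod M)ˣ)
    (hd : (d : ZMod M) = ((γ 1 1 : ℤ) : ZMod M)) (σ' : F1pL E M a ≃ₐ[E] F1pL E M a)
    (hσ' : IsDiamondP E M a d σ') (f : F1pL E M a) :
    γ • f1pEmb ζ' hζ' f = f1pEmb ζ' hζ' (σ' f) := by
  obtain ⟨σ, hσ, hα, hβ⟩ := hσ'
  have key := f1pL_ringHom_ext
    (((MulSemiringAction.toRingHom SL(2, ℤ) (IActField ι (M * a)) γ)).comp (f1pEmb ζ' hζ'))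
    ((f1pEmb ζ' hζ').comp (σ' : F1pL E M a →+* F1pL E M a)) ?_ ?_ ?_
  · exact congrArg (fun φ => φ f) key
  · intro c
    simp only [RingHom.comp_apply, MulSemiringAction.toRingHom_apply, RingHom.coe_coe,
      AlgEquiv.commutes]
    rw [f1pEmb_algebraMap]
    exact iactG_fix_C _ ⟨γ, rfl⟩ c
  · intro f
    simp only [RingHom.comp_apply, MulSemiringAction.toRingHom_apply, RingHom.coe_coe]
    rw [hα, smul_f1pEmb_alpha1 ζ' hζ' hγ d hd σ hσ f]
  · intro f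
    simp only [RingHom.comp_apply, MulSemiringAction.toRingHom_apply, RingHom.coe_coe]
    rw [hβ, smul_f1pEmb_beta1 ζ' hζ' hγ d hd σ hσ f]

/-- **`G_V` in avatar form for `E · F1p M a`**: the diamond automorphisms preserve the Gauss
valuation ring of the `X`-expansion at level `M a` (given the `q`-expansion principle `qep0` of
the base `X₀(M a)`, hypothesis of `H856.iact_stable`). -/
theorem f1pEmb_diamond_mem_gaussRing (𝒪 : ValuationSubring E) {w₀ : E} (hd : IsDiscrete 𝒪 w₀)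
    (hqep0 : ∀ b ∈ chart (iactF0 ζ' hζ') (𝒪.toSubring.map (iactFC ι (M * a)))
        (iactFJ ι (M * a)),
      b * (iactFC ι (M * a) w₀)⁻¹ ∈ gaussRing 𝒪 (iactFieldExp ι (M * a)) →
        b * (iactFC ι (M * a) w₀)⁻¹ ∈ chart (iactF0 ζ' hζ')
          (𝒪.toSubring.map (iactFC ι (M * a))) (iactFJ ι (M * a)))
    {γ : SL(2, ℤ)} (hγ : γ ∈ Gamma0 (M * a)) (d : (ZMod M)ˣ)
    (hdγ : (d : ZMod M) = ((γ 1 1 : ℤ) : ZMod M)) (σ' : F1pL E M a ≃ₐ[E] F1pL E M a)
    (hσ' : IsDiamondP E M a d σ') (f : F1pL E M a)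
    (hf : f1pEmb ζ' hζ' f ∈ gaussRing 𝒪 (iactFieldExp ι (M * a))) :
    f1pEmb ζ' hζ' (σ' f) ∈ gaussRing 𝒪 (iactFieldExp ι (M * a)) := by
  rw [← smul_f1pEmb ζ' hζ' hγ d hdγ σ' hσ' f]
  exact iact_stable 𝒪 ζ' hζ' hd hqep0 γ (f1pEmb_mem_iactBd ζ' hζ' 𝒪 hd f) hf

end Fermat.Agent.S48.H929
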